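/-
S15 / FL-1 : all nodes (stubs or redirects).
-/
import Fermat.Agent.S15.FL.WIP.Orbit
import Fermat.Agent.S15.FL.WIP.OrbPoly
import Fermat.Agent.S15.FL.WIP.Interp
import Fermat.Agent.S15.FL.WIP.ValIndep
import Fermat.Agent.S15.FL.WIP.ValIndepB
import Fermat.Agent.S15.FL.WIP.UnifA
import Fermat.Agent.S15.FL.WIP.UnifB
import Fermat.Agent.S15.FL.WIP.Red
import Fermat.Agent.S15.FL.WIP.Indep
import Fermat.Agent.S15.FL.WIP.Poly
import Fermat.Agent.S15.FL.WIP.DiscPoly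
import Fermat.Agent.S15.FL.WIP.Disc
import Fermat.Agent.S15.FL.WIP.Norm
import Fermat.Agent.S15.FL.WIP.Prim
import Fermat.Agent.S15.FL.WIP.Approx
import Fermat.Agent.S15.FL.WIP.FixPrim
import Fermat.Agent.S15.FL.WIP.Krasner
import Fermat.Agent.S15.FL.WIP.TotRamLe
import Fermat.Agent.S15.FL.WIP.TotRam
import Fermat.Agent.S15.FL.WIP.RatUnit
import Fermat.Agent.S15.FL.WIP.F2Orb
import Fermat.Agent.S15.FL.WIP.F2
import Fermat.Agent.S15.FL.WIP.F1Gen
import Fermat.Agent.S15.FL.WIP.F1Card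
import Fermat.Agent.S15.FL.WIP.F1Wild
import Fermat.Agent.S15.FL.WIP.F1Core
import Fermat.Agent.S15.FL.WIP.F1
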